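import Fermat.Agent.CycloKummer.CaseTwo
import Fermat.Agent.Regular.FirstCaseBernoulli

/-!
# The first case in `ℤ[ζ_p]`

For semi-primary `x ≡ a`, `y ≡ b (mod λ²)` with `a + b`, `a - b` prime to `p` the numbers
`(x + ζ^i y) (x + y)^(p-1)` are units times `p`-th powers, so congruent modulo `p` to `ζ^(i j)` times their
conjugates with `j` the same for all `i`; four values of `i` give `λ^(p-1) ∣ λ³`.
-/

set_option autoImplicit false

noncomputable section

open NumberField Finset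
open FA.Ext FA.Regular

namespace FA.CycloKummer

variable {p : ℕ} [Fact p.Prime] {K : Type*} [Field K] [NumberField K] [IsCyclotomicExtension {p} ℚ K]

local notation "ζ" => zetaInt p K
local notation "λ₀" => zetaInt p K - 1
local notation "cK" => sigma p K (-1)
local notation "Q₂" => 𝓞 K ⧸ Ideal.span {(zetaInt p K - 1) ^ 2}

theorem cycloRing_zetaInt (h3 : 3 ≤ p) : CycloRing (𝓞 K) p ζ :=
  cycloRing_ringOfIntegers h3 (IsCyclotomicExtension.zeta_spec p ℚ K)

theorem zeta_pow_congr {m n : ℕ} (h : (m : ZMod p) = (n : ZMod p)) : ζ ^ m = ζ ^ n := by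
  rw [pow_eq_pow_mod m (zetaInt_spec p K).pow_eq_one, pow_eq_pow_mod n (zetaInt_spec p K).pow_eq_one,
    (ZMod.natCast_eq_natCast_iff' m n p).mp h]

theorem cj_zeta : cK ζ = ζ ^ (p - 1) := by
  rw [sigma_zetaInt]
  refine zeta_pow_congr ?_
  rw [ZMod.natCast_zmod_val, Units.val_neg, Units.val_one, Nat.cast_sub (Fact.out : p.Prime).one_le,
    Nat.cast_one, ZMod.natCast_self, zero_sub]

/-- Reduction modulo `λ²`. -/
def redSq (p : ℕ) [Fact p.Prime] (K : Type*) [Field K] [NumberField K] [IsCyclotomicExtension {p} ℚ K] :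
    𝓞 K →+* 𝓞 K ⧸ Ideal.span {(zetaInt p K - 1) ^ 2} :=
  Ideal.Quotient.mk _

theorem redSq_eq {x y : 𝓞 K} : redSq p K x = redSq p K y ↔ λ₀ ^ 2 ∣ x - y := by
  rw [redSq, Ideal.Quotient.mk_eq_mk_iff_sub_mem, Ideal.mem_span_singleton]

theorem redSq_lam_sq : redSq p K λ₀ * redSq p K λ₀ = 0 := by
  rw [← map_mul, ← map_zero (redSq p K), redSq_eq, sub_zero, sq]

theorem redSq_zeta_pow (n : ℕ) : redSq p K (ζ ^ n) = 1 + (n : Q₂) * redSq p K λ₀ := by
  have hz : redSq p K ζ = 1 + redSq p K λ₀ := by rw [map_sub, map_one]; ring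
  induction n with
  | zero => simp
  | succ n ih =>
    rw [pow_succ ζ n, map_mul, ih, hz, Nat.cast_succ]
    linear_combination (n : Q₂) * redSq_lam_sq (p := p) (K := K)

theorem redSq_prime (h3 : 3 ≤ p) : redSq p K (p : 𝓞 K) = 0 := by
  rw [← map_zero (redSq p K), redSq_eq, sub_zero]
  exact (pow_dvd_pow _ (by omega)).trans (cycloRing_zetaInt h3).assoc.dvd

theorem intCast_zmod_eq_zero_of_redSq (h3 : 3 ≤ p) {A B : ℤ}
    (h : (A : Q₂) + (B : Q₂) * redSq p K λ₀ = 0) : (A : ZMod p) = 0 ∧ (B : ZMod p) = 0 := by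
  have H := cycloRing_zetaInt (K := K) h3
  rw [← map_intCast (redSq p K) A, ← map_intCast (redSq p K) B, ← map_mul, ← map_add, ← map_zero (redSq p K),
    redSq_eq, sub_zero] at h
  have h1 : λ₀ ∣ (A : 𝓞 K) := (dvd_add_left (dvd_mul_left λ₀ _)).mp ((dvd_pow_self _ two_ne_zero).trans h)
  have hA := H.int_dvd A h1
  have h2 : λ₀ ^ 2 ∣ (A : 𝓞 K) := by
    obtain ⟨c, rfl⟩ := hA
    push_cast
    exact ((pow_dvd_pow _ (by omega)).trans H.assoc.dvd).mul_right _
  have h3' := (dvd_add_right h2).mp h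
  rw [sq, mul_dvd_mul_iff_right H.lam_prime.ne_zero] at h3'
  exact ⟨(ZMod.intCast_zmod_eq_zero_iff_dvd _ _).mpr hA,
    (ZMod.intCast_zmod_eq_zero_iff_dvd _ _).mpr (H.int_dvd B h3')⟩

/-- Conjugation fixes the rational residues modulo `λ²`. -/
theorem redSq_cj {x : 𝓞 K} {a : ℤ} (hx : redSq p K x = a) : redSq p K (cK x) = a := by
  rw [← map_intCast (redSq p K), redSq_eq] at hx ⊢
  obtain ⟨w, hw⟩ := hx
  have hl : λ₀ ∣ cK λ₀ := by rw [map_sub, map_one, cj_zeta]; exact sub_one_dvd_pow_sub_one _ _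
  rw [← map_intCast cK a, ← map_sub, hw, map_mul, map_pow]
  exact dvd_mul_of_dvd_left (pow_dvd_pow_of_dvd hl 2) _

/-- Semi-primary numbers: multiply by a root of unity. -/
theorem exists_semiprimary (h3 : 3 ≤ p) {x : 𝓞 K} (hx : ¬ λ₀ ∣ x) :
    ∃ (k : ℕ) (a : ℤ), redSq p K (ζ ^ k * x) = a ∧ (a : ZMod p) ≠ 0 := by
  have H := cycloRing_zetaInt (K := K) h3
  obtain ⟨a, x₁, hx₁⟩ := H.residue x
  obtain ⟨b, x₂, hx₂⟩ := H.residue x₁
  have ha : (a : ZMod p) ≠ 0 := fun e => by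
    obtain ⟨c, rfl⟩ := (ZMod.intCast_zmod_eq_zero_iff_dvd _ _).mp e
    refine hx ?_
    push_cast at hx₁
    rw [sub_eq_iff_eq_add.mp hx₁]
    exact dvd_add (dvd_mul_right _ _) (H.lam_dvd_prime_one.mul_right _)
  set k := (-(b : ZMod p) / a).val
  refine ⟨k, a, ?_, ha⟩
  have hk : (((k : ℤ) * a + b : ℤ) : ZMod p) = 0 := by
    push_cast
    rw [ZMod.natCast_zmod_val, div_mul_cancel₀ _ ha, neg_add_cancel]
  obtain ⟨c, hc⟩ := (ZMod.intCast_zmod_eq_zero_iff_dvd _ _).mp hk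
  have hc' : (k : Q₂) * (a : Q₂) + (b : Q₂) = 0 := by
    have := congrArg (fun n : ℤ => redSq p K (n : 𝓞 K)) hc
    simpa [redSq_prime h3] using this
  have e : x = (a : 𝓞 K) + λ₀ * ((b : 𝓞 K) + λ₀ * x₂) := by linear_combination hx₁ + λ₀ * hx₂
  rw [map_mul, redSq_zeta_pow, e, map_add, map_mul, map_add, map_mul, map_intCast, map_intCast]
  linear_combination (redSq p K λ₀) * hc' + ((b : Q₂) * k + redSq p K x₂ +
    redSq p K λ₀ * k * redSq p K x₂) * redSq_lam_sq (p := p) (K := K)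

/-- The conjugate of a unit times a `p`-th power. -/
theorem exists_conj_congr (h3 : 3 ≤ p) (u : (𝓞 K)ˣ) (t : 𝓞 K) : ∃ s j : ℕ,
    (p : 𝓞 K) ∣ cK ((u : 𝓞 K) * t ^ p) - (-1) ^ s * ζ ^ j * ((u : 𝓞 K) * t ^ p) := by
  obtain ⟨s, j, -, h⟩ := exists_conj_unit_eq (p := p) (by omega) u
  obtain ⟨n, c, hc⟩ := (cycloRing_zetaInt (K := K) h3).pow_prime_int t
  refine ⟨s, j, (-1) ^ s * ζ ^ j * (u : 𝓞 K) * (cK c - c), ?_⟩
  have hc' := congrArg cK hc
  rw [map_sub, map_mul, map_intCast, map_natCast, map_pow] at hc'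
  rw [map_mul, map_pow, h]
  linear_combination ((-1) ^ s * ζ ^ j * (u : 𝓞 K)) * hc' - ((-1) ^ s * ζ ^ j * (u : 𝓞 K)) * hc

/-- The heart of the first case. -/
theorem first_case_core (h5 : 5 ≤ p) (hR : IdealRootProp (𝓞 K) p) {x y z : 𝓞 K} {a b : ℤ}
    (hx : redSq p K x = a) (hy : redSq p K y = b) (ha : (a : ZMod p) ≠ 0) (hb : (b : ZMod p) ≠ 0)
    (hab : (a : ZMod p) + b ≠ 0) (hne : (a : ZMod p) ≠ b) : x ^ p + y ^ p ≠ z ^ p := by
  intro heq
  have hp : p.Prime := Fact.out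
  have h3 : 3 ≤ p := by omega
  have hodd : Odd p := hp.odd_of_ne_two (by omega)
  have H := cycloRing_zetaInt (K := K) h3
  have hx1 : λ₀ ∣ x - a := (dvd_pow_self _ two_ne_zero).trans (redSq_eq.mp (hx.trans (map_intCast _ a).symm))
  have hy1 : λ₀ ∣ y - b := (dvd_pow_self _ two_ne_zero).trans (redSq_eq.mp (hy.trans (map_intCast _ b).symm))
  have hndvd : ∀ i : ℕ, ¬ λ₀ ∣ x + ζ ^ i * y := fun i h => by
    refine hab ?_
    rw [← Int.cast_add, ZMod.intCast_zmod_eq_zero_iff_dvd]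
    refine H.int_dvd _ ?_
    obtain ⟨c1, hc1⟩ := hx1
    obtain ⟨c2, hc2⟩ := hy1
    obtain ⟨c3, hc3⟩ := sub_one_dvd_pow_sub_one (ζ : 𝓞 K) i
    obtain ⟨c4, hc4⟩ := h
    refine ⟨c4 - c1 - c2 - c3 * y, ?_⟩
    push_cast
    linear_combination hc4 - hc1 - hc2 - y * hc3
  -- `(x + ζ^i y)(x + y)^(p-1)` is a unit times a `p`-th power
  set D : Ideal (𝓞 K) := Ideal.span {x, y}
  have hxD : x ∈ D := Ideal.subset_span (Set.mem_insert _ _)
  have hyD : y ∈ D := Ideal.subset_span (Set.mem_insert_of_mem _ rfl)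
  have hD : D ≠ ⊥ := fun e => hndvd 0 (by
    rw [e, Ideal.mem_bot] at hxD hyD; rw [hxD, hyD, mul_zero, add_zero]; exact dvd_zero _)
  have hroot : ∀ i < p, ∃ (u : (𝓞 K)ˣ) (t : 𝓞 K), (x + ζ ^ i * y) * (x + y) ^ (p - 1) = (u : 𝓞 K) * t ^ p := by
    intro i hi
    have hsup : ∀ i < p, ∀ j < p, i ≠ j →
        D ≤ Ideal.span {x + ζ ^ i * y} ⊔ Ideal.span {x + ζ ^ j * y} := by
      intro i hi j hj hij
      set S := Ideal.span {x + ζ ^ i * y} ⊔ Ideal.span {x + ζ ^ j * y}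
      have hiS : x + ζ ^ i * y ∈ S := Ideal.mem_sup_left (Ideal.mem_span_singleton_self _)
      have hjS : x + ζ ^ j * y ∈ S := Ideal.mem_sup_right (Ideal.mem_span_singleton_self _)
      obtain ⟨U, hU⟩ := H.geom_sum_sub_isUnit hi hj hij
      have hl : λ₀ * y ∈ S := by
        have e1 : λ₀ * (∑ k ∈ range i, ζ ^ k) = ζ ^ i - 1 := mul_geom_sum ζ i
        have e2 : λ₀ * (∑ k ∈ range j, ζ ^ k) = ζ ^ j - 1 := mul_geom_sum ζ j
        have : λ₀ * y = (↑U⁻¹ : 𝓞 K) * ((x + ζ ^ i * y) - (x + ζ ^ j * y)) := by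
          linear_combination -(λ₀ * y) * U.inv_mul + (↑U⁻¹ * λ₀ * y) * hU + (↑U⁻¹ * y) * (e1 - e2)
        rw [this]; exact Ideal.mul_mem_left _ _ (sub_mem hiS hjS)
      obtain ⟨A, B, hAB⟩ := isCoprime_lam H (hndvd i)
      have hyS : y ∈ S := by
        have : y = A * (λ₀ * y) + B * y * (x + ζ ^ i * y) := by linear_combination (-y) * hAB
        rw [this]; exact add_mem (Ideal.mul_mem_left _ _ hl) (Ideal.mul_mem_left _ _ hiS)
      refine Ideal.span_le.mpr fun t ht => ?_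
      rcases ht with rfl | rfl
      · simpa using sub_mem hiS (Ideal.mul_mem_left S (ζ ^ i) hyS)
      · exact hyS
    obtain ⟨J, hJ⟩ := exists_pow_of_common_factor (A := fun i => Ideal.span {x + ζ ^ i * y}) (E := Ideal.span {z})
      hp.ne_zero hD (fun i _ => (Ideal.span_singleton_le_iff_mem _).mpr (add_mem hxD (Ideal.mul_mem_left _ _ hyD)))
      hsup (by rw [Ideal.prod_span_singleton, Ideal.span_singleton_pow, ← H.pow_add_pow_eq_prod hodd, heq])
      hi (show 0 < p by omega)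
    rw [pow_zero, one_mul, Ideal.span_singleton_pow, Ideal.span_singleton_mul_span_singleton] at hJ
    obtain ⟨t, u, h⟩ := hR _ J hJ
    exact ⟨u, t, h⟩
  set W := (x + y) ^ (p - 1)
  set e : ℤ := (a + b) ^ (p - 1)
  have hW : redSq p K W = e := by simp [W, e, hx, hy]
  have he : (e : ZMod p) ≠ 0 := by
    simp only [e, Int.cast_pow, Int.cast_add]
    exact pow_ne_zero _ hab
  set ν : ZMod p := (b : ZMod p) / (a + b)
  have hν : ν * ((a : ZMod p) + b) = b := div_mul_cancel₀ _ hab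
  set ω₁ : 𝓞 K := ζ ^ (p - 1)
  set ω₂ : 𝓞 K := ζ ^ (-2 * ν).val
  set ω₃ : 𝓞 K := ζ ^ (1 - 2 * ν).val
  -- the congruence
  have hF : ∀ i < p, (p : 𝓞 K) ∣ cK x * cK W + cK y * cK W * ω₁ ^ i - x * W * ω₂ ^ i - y * W * ω₃ ^ i := by
    intro i hi
    obtain ⟨u, t, hut⟩ := hroot i hi
    obtain ⟨s, j, hsj⟩ := exists_conj_congr h3 u t
    rw [← hut, map_mul, map_add, map_mul, map_pow, cj_zeta, ← pow_mul] at hsj
    obtain ⟨c, hc⟩ := hsj
    have hq := congrArg (redSq p K) hc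
    simp only [map_mul, map_add, map_sub, map_pow, map_neg, map_one, redSq_prime h3, zero_mul, redSq_cj hx,
      redSq_cj hy, redSq_cj hW, hx, hy, hW] at hq
    rw [← map_pow, ← map_pow, ← map_pow, redSq_zeta_pow, redSq_zeta_pow, redSq_zeta_pow] at hq
    obtain ⟨hA, hB⟩ := intCast_zmod_eq_zero_of_redSq (K := K) h3 (A := e * (a + b) * (1 - (-1) ^ s))
      (B := e * (((p - 1) * i : ℕ) * b - (-1) ^ s * i * b - (-1) ^ s * j * (a + b))) (by
      push_cast at hq ⊢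
      linear_combination hq + (((-1) ^ s : Q₂) * e * j * i * b) * redSq_lam_sq (p := p) (K := K))
    push_cast at hA hB
    have hσ : ((-1) ^ s : 𝓞 K) = 1 ∧ ((-1) ^ s : ZMod p) = 1 := by
      rcases neg_one_pow_eq_or (ZMod p) s with hs | hs
      · refine ⟨?_, hs⟩
        rcases Nat.even_or_odd s with hev | hod
        · exact hev.neg_one_pow
        · rw [hod.neg_one_pow] at hs
          exact absurd (show (2 : ZMod p) = 0 by linear_combination -hs) (two_ne_zero_of_five_le p h5)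
      · rw [hs] at hA
        exact absurd (show (2 : ZMod p) = 0 from (mul_eq_zero.mp (show (e : ZMod p) * (a + b) * 2 = 0 by
          linear_combination hA)).resolve_left (mul_ne_zero he hab)) (two_ne_zero_of_five_le p h5)
    rw [hσ.2, Nat.cast_sub hp.one_le, Nat.cast_one, ZMod.natCast_self] at hB
    have hB' := (mul_eq_zero.mp hB).resolve_left he
    have hj : ((j : ℕ) : ZMod p) = (((-2 * ν).val * i : ℕ) : ZMod p) := by
      rw [Nat.cast_mul, ZMod.natCast_zmod_val]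
      refine mul_right_cancel₀ hab ?_
      linear_combination -hB' + 2 * (i : ZMod p) * hν
    have hj3 : ((j + i : ℕ) : ZMod p) = (((1 - 2 * ν).val * i : ℕ) : ZMod p) := by
      rw [Nat.cast_add, hj, Nat.cast_mul, Nat.cast_mul, ZMod.natCast_zmod_val, ZMod.natCast_zmod_val]
      ring
    refine ⟨c, ?_⟩
    rw [hσ.1] at hc
    simp only [ω₁, ω₂, ω₃, ← pow_mul, ← zeta_pow_congr (K := K) hj, ← zeta_pow_congr (K := K) hj3, pow_add]
    linear_combination hc
  obtain ⟨c₀, hc₀⟩ := hF 0 (by omega)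
  obtain ⟨c₁, hc₁⟩ := hF 1 (by omega)
  obtain ⟨c₂, hc₂⟩ := hF 2 (by omega)
  obtain ⟨c₃, hc₃⟩ := hF 3 (by omega)
  have hfin : (p : 𝓞 K) ∣ cK x * cK W * ((1 - ω₁) * (1 - ω₂) * (1 - ω₃)) :=
    ⟨c₃ - (ω₁ + ω₂ + ω₃) * c₂ + (ω₁ * ω₂ + ω₁ * ω₃ + ω₂ * ω₃) * c₁ - ω₁ * ω₂ * ω₃ * c₀, by
      linear_combination hc₃ - (ω₁ + ω₂ + ω₃) * hc₂ + (ω₁ * ω₂ + ω₁ * ω₃ + ω₂ * ω₃) * hc₁ -
        ω₁ * ω₂ * ω₃ * hc₀⟩
  have hunit : ∀ m : ℕ, m ≠ 0 → m < p → ∃ U : (𝓞 K)ˣ, 1 - ζ ^ m = λ₀ * (U : 𝓞 K) := fun m hm hmp => by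
    obtain ⟨U, hU⟩ := H.geom_sum_sub_isUnit hmp (show 0 < p by omega) hm
    refine ⟨-U, ?_⟩
    rw [Units.val_neg, hU, sum_range_zero, sub_zero, mul_neg, mul_geom_sum, neg_sub]
  obtain ⟨U₁, hU₁⟩ := hunit (p - 1) (by omega) (by omega)
  obtain ⟨U₂, hU₂⟩ := hunit (-2 * ν).val (fun h0 => by
    rw [ZMod.val_eq_zero, neg_mul, neg_eq_zero] at h0
    rw [(mul_eq_zero.mp h0).resolve_left (two_ne_zero_of_five_le p h5), zero_mul] at hν
    exact hb hν.symm) (ZMod.val_lt _)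
  obtain ⟨U₃, hU₃⟩ := hunit (1 - 2 * ν).val (fun h0 => by
    rw [ZMod.val_eq_zero, sub_eq_zero] at h0
    exact hne (by linear_combination ((a : ZMod p) + b) * h0 + 2 * hν)) (ZMod.val_lt _)
  have h4 : λ₀ ^ 4 ∣ λ₀ ^ 3 * (cK x * cK W * ((U₁ * U₂ * U₃ : (𝓞 K)ˣ) : 𝓞 K)) := by
    refine ((pow_dvd_pow _ (show 4 ≤ p - 1 by omega)).trans H.assoc.dvd).trans ?_
    convert hfin using 1
    rw [hU₁, hU₂, hU₃, Units.val_mul, Units.val_mul]
    ring
  rw [pow_succ, mul_dvd_mul_iff_left (pow_ne_zero 3 H.lam_prime.ne_zero)] at h4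
  rcases H.lam_prime.dvd_or_dvd h4 with h | h
  · rcases H.lam_prime.dvd_or_dvd h with h | h
    · have h' := (intCast_zmod_eq_zero_of_redSq (K := K) h3 (A := a ^ 2) (B := 0) (by
        obtain ⟨c, hc⟩ := h
        have e1 : redSq p K (cK x * cK x) = 0 := by
          rw [← map_zero (redSq p K), redSq_eq, sub_zero, hc]; exact ⟨c * c, by ring⟩
        rw [map_mul, redSq_cj hx] at e1
        push_cast
        linear_combination e1)).1
      rw [Int.cast_pow] at h'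
      exact ha (pow_eq_zero_iff two_ne_zero |>.mp h')
    · have h' := (intCast_zmod_eq_zero_of_redSq (K := K) h3 (A := e ^ 2) (B := 0) (by
        obtain ⟨c, hc⟩ := h
        have e1 : redSq p K (cK W * cK W) = 0 := by
          rw [← map_zero (redSq p K), redSq_eq, sub_zero, hc]; exact ⟨c * c, by ring⟩
        rw [map_mul, redSq_cj hW] at e1
        push_cast
        linear_combination e1)).1
      rw [Int.cast_pow] at h'
      exact he (pow_eq_zero_iff two_ne_zero |>.mp h')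
  · exact H.lam_not_dvd_unit _ h

/-- **Case I**: no solutions prime to `λ`. -/
theorem first_case (h5 : 5 ≤ p) (hR : IdealRootProp (𝓞 K) p) {x y z : 𝓞 K} (hx : ¬ λ₀ ∣ x) (hy : ¬ λ₀ ∣ y)
    (hz : ¬ λ₀ ∣ z) : x ^ p + y ^ p + z ^ p ≠ 0 := by
  intro heq
  have hp : p.Prime := Fact.out
  have hodd : Odd p := hp.odd_of_ne_two (by omega)
  have h3 : 3 ≤ p := by omega
  obtain ⟨k, a, hX, ha⟩ := exists_semiprimary h3 hx
  obtain ⟨l, b, hY, hb⟩ := exists_semiprimary h3 hy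
  obtain ⟨m, c, hZ, hc⟩ := exists_semiprimary h3 hz
  have hpow : ∀ (k : ℕ) (x : 𝓞 K), (ζ ^ k * x) ^ p = x ^ p := fun k x => by
    rw [mul_pow, ← pow_mul, mul_comm k, pow_mul, (zetaInt_spec p K).pow_eq_one, one_pow, one_mul]
  rw [← hpow k x, ← hpow l y, ← hpow m z] at heq
  have hsum : (a : ZMod p) + b + c = 0 := by
    have h := congrArg (redSq p K) heq
    simp only [map_add, map_pow, map_zero, hX, hY, hZ] at h
    have h' := (intCast_zmod_eq_zero_of_redSq (K := K) h3 (A := a ^ p + b ^ p + c ^ p) (B := 0)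
      (by push_cast; linear_combination h)).1
    push_cast at h'
    rwa [ZMod.pow_card, ZMod.pow_card, ZMod.pow_card] at h'
  by_cases hne : (a : ZMod p) = b
  · by_cases hne' : (b : ZMod p) = c
    · have h3z : ((3 : ℕ) : ZMod p) ≠ 0 := fun h => by
        have := Nat.le_of_dvd (by norm_num) ((ZMod.natCast_eq_zero_iff 3 p).mp h)
        omega
      exact mul_ne_zero h3z hb (by push_cast; linear_combination hsum - hne + hne')
    · refine first_case_core h5 hR hY hZ hb hc (fun e => ha (by linear_combination hsum - e)) hne'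
        (z := -(ζ ^ k * x)) ?_
      rw [hodd.neg_pow]; linear_combination heq
  · refine first_case_core h5 hR hX hY ha hb (fun e => hc (by linear_combination hsum - e)) hne
      (z := -(ζ ^ m * z)) ?_
    rw [hodd.neg_pow]; linear_combination heq

end FA.CycloKummer
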