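import Fermat.Agent.CycloKummer.Ideals

/-!
# The second case in `ℤ[ζ_p]` without coprimality

Kummer's descent for `x^p + y^p = ε (λ^(m+1) z)^p` with `λ ∤ x y z`; `x` and `y` may have an ideal
factor in common, which the `(p-1)`-st power of one factor turns into a `p`-th power.
-/

set_option autoImplicit false

open Finset
open FA.Regular

namespace FA.CycloKummer

variable {R : Type*} [CommRing R] [IsDedekindDomain R] {p : ℕ} [hp : Fact p.Prime] {ζ : R}

/-- `λ` is comaximal with what it does not divide. -/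
theorem isCoprime_lam (H : CycloRing R p ζ) {y : R} (hy : ¬ ζ - 1 ∣ y) : IsCoprime (ζ - 1) y := by
  obtain ⟨n, c, hc⟩ := H.residue y
  have hn : ¬ (p : ℤ) ∣ n := by
    rintro ⟨k, rfl⟩
    refine hy ?_
    obtain ⟨d, hd⟩ := H.lam_dvd_prime_one
    refine ⟨c + d * (k : R), ?_⟩
    push_cast at hc
    linear_combination hc + (k : R) * hd
  obtain ⟨A, B, hAB⟩ : IsCoprime (p : ℤ) n :=
    (Nat.prime_iff_prime_int.mp hp.out).coprime_iff_not_dvd.2 hn
  obtain ⟨d, hd⟩ := H.lam_dvd_prime_one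
  have hABR : (A : R) * (p : R) + (B : R) * (n : R) = 1 := by exact_mod_cast congrArg (Int.cast : ℤ → R) hAB
  exact ⟨(A : R) * d - (B : R) * c, (B : R), by linear_combination hABR - (A : R) * hd + (B : R) * hc⟩

/-- The descent step, from a solution with `(ζ - 1) ^ 2 ∣ x + y`. -/
theorem descent_step_general (H : CycloRing R p ζ) (h5 : 3 ≤ p) (hK : KummerProp R p) (hR : IdealRootProp R p)
    (m : ℕ) {x y z : R} (ε : Rˣ) (hy : ¬ ζ - 1 ∣ y) (hz : ¬ ζ - 1 ∣ z)
    (heq : x ^ p + y ^ p = (ε : R) * ((ζ - 1) ^ (m + 1) * z) ^ p)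
    {w : R} (hxy : x + y = (ζ - 1) * w) (hw : ζ - 1 ∣ w) :
    ∃ m' : ℕ, m = m' + 1 ∧ ∃ (x' y' z' : R) (ε' : Rˣ), ¬ ζ - 1 ∣ x' ∧ ¬ ζ - 1 ∣ y' ∧ ¬ ζ - 1 ∣ z' ∧
      x' ^ p + y' ^ p = (ε' : R) * ((ζ - 1) ^ (m' + 1) * z') ^ p := by
  have hodd : Odd p := hp.out.odd_of_ne_two (by omega)
  have hlam := H.lam_prime
  set lam := ζ - 1 with hlamdef
  set a : ℕ → R := fun i => w + (∑ k ∈ range i, ζ ^ k) * y with ha
  have hfac : ∀ i, x + ζ ^ i * y = lam * a i := by
    intro i
    have h : lam * (∑ k ∈ range i, ζ ^ k) = ζ ^ i - 1 := mul_geom_sum ζ i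
    simp only [ha]
    linear_combination hxy - y * h
  have hprod : lam ^ p * ∏ i ∈ range p, a i = lam ^ p * ((ε : R) * lam ^ (p * m) * z ^ p) := by
    calc lam ^ p * ∏ i ∈ range p, a i = ∏ i ∈ range p, (x + ζ ^ i * y) := by
          simp_rw [hfac]; rw [Finset.prod_mul_distrib, Finset.prod_const, Finset.card_range]
      _ = _ := by
          rw [← H.pow_add_pow_eq_prod hodd, heq]
          ring_nf
  replace hprod := mul_left_cancel₀ (pow_ne_zero _ hlam.ne_zero) hprod
  have hndvd : ∀ i, 0 < i → i < p → ¬ lam ∣ a i := by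
    intro i hi0 hip h
    have h1 : lam ∣ (∑ k ∈ range i, ζ ^ k) * y := by simpa [ha] using dvd_sub h hw
    rcases hlam.dvd_or_dvd h1 with h2 | h2
    · have h3 : lam ∣ ((i : ℤ) : R) := by
        have := dvd_sub h2 (H.geom_sum_congr i)
        simpa [hlamdef] using this
      have := H.int_dvd _ h3
      exact Nat.not_dvd_of_pos_of_lt hi0 hip (Int.natCast_dvd_natCast.1 this)
    · exact hy h2
  have hr : range p = insert 0 (Finset.Ico 1 p) := by
    ext i; simp only [Finset.mem_range, Finset.mem_insert, Finset.mem_Ico]; omega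
  have h0 : (0 : ℕ) ∉ Finset.Ico 1 p := by simp
  have hrest : ¬ lam ∣ ∏ i ∈ Finset.Ico 1 p, a i := by
    intro h
    obtain ⟨i, hi, hdvd⟩ := (hlam.dvd_finsetProd_iff _).1 h
    rw [Finset.mem_Ico] at hi
    exact hndvd i (by omega) hi.2 hdvd
  rw [hr, Finset.prod_insert h0] at hprod
  have ha0 : a 0 = w := by simp [ha]
  rw [ha0] at hprod
  obtain ⟨m', rfl⟩ : ∃ m', m = m' + 1 := by
    rcases m with _ | k
    · exfalso
      rw [Nat.mul_zero, pow_zero, mul_one] at hprod
      have : lam ∣ (ε : R) * z ^ p := hprod ▸ dvd_mul_of_dvd_left hw _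
      rcases hlam.dvd_or_dvd this with h | h
      · exact H.lam_not_dvd_unit ε h
      · exact hz (hlam.dvd_of_dvd_pow h)
    · exact ⟨k, rfl⟩
  refine ⟨m', rfl, ?_⟩
  have hpw : lam ^ (p * (m' + 1)) ∣ w := by
    refine hlam.pow_dvd_of_dvd_mul_right _ hrest ?_
    rw [hprod]
    exact dvd_mul_of_dvd_left (dvd_mul_left _ _) _
  obtain ⟨w', hw'⟩ := hpw
  have hprod' : w' * ∏ i ∈ Finset.Ico 1 p, a i = (ε : R) * z ^ p := by
    refine mul_left_cancel₀ (pow_ne_zero (p * (m' + 1)) hlam.ne_zero) ?_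
    rw [hw'] at hprod
    linear_combination hprod
  have hw'n : ¬ lam ∣ w' := by
    intro h
    have : lam ∣ (ε : R) * z ^ p := hprod' ▸ dvd_mul_of_dvd_left h _
    rcases hlam.dvd_or_dvd this with h | h
    · exact H.lam_not_dvd_unit ε h
    · exact hz (hlam.dvd_of_dvd_pow h)
  -- the ideals of the factors, with the common ideal `(w', y)`
  set b : ℕ → R := fun i => if i = 0 then w' else a i with hb
  set D : Ideal R := Ideal.span {w', y}
  have hwD : w ∈ D := by
    rw [hw']; exact Ideal.mul_mem_left _ _ (Ideal.subset_span (Set.mem_insert _ _))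
  have hyD : y ∈ D := Ideal.subset_span (Set.mem_insert_of_mem _ rfl)
  have hle : ∀ i < p, Ideal.span {b i} ≤ D := by
    intro i _
    rw [Ideal.span_singleton_le_iff_mem]
    by_cases h : i = 0
    · simp only [hb, h, if_pos]
      exact Ideal.subset_span (Set.mem_insert _ _)
    · simp only [hb, h, if_false, ha]
      exact add_mem hwD (Ideal.mul_mem_left _ _ hyD)
  have hD : D ≠ ⊥ := fun e => hy (by
    rw [e, Ideal.mem_bot] at hyD; rw [hyD]; exact dvd_zero _)
  have hsup : ∀ i < p, ∀ j < p, i ≠ j → D ≤ Ideal.span {b i} ⊔ Ideal.span {b j} := by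
    intro i hi j hj hij
    set S := Ideal.span {b i} ⊔ Ideal.span {b j}
    have hbi : b i ∈ S := Ideal.mem_sup_left (Ideal.mem_span_singleton_self _)
    have hbj : b j ∈ S := Ideal.mem_sup_right (Ideal.mem_span_singleton_self _)
    have haS : a i ∈ S ∧ a j ∈ S := by
      have hw'S : ∀ k, k = 0 → b k ∈ S → a k ∈ S := by
        intro k hk h
        subst hk
        rw [ha0, hw']
        simp only [hb, if_pos] at h
        exact Ideal.mul_mem_left _ _ h
      refine ⟨?_, ?_⟩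
      · by_cases h : i = 0
        · exact hw'S i h hbi
        · simpa only [hb, h, if_false] using hbi
      · by_cases h : j = 0
        · exact hw'S j h hbj
        · simpa only [hb, h, if_false] using hbj
    obtain ⟨U, hU⟩ := H.geom_sum_sub_isUnit hi hj hij
    have hyS : y ∈ S := by
      have : y = (↑U⁻¹ : R) * (a i - a j) := by
        have : a i - a j = (U : R) * y := by simp only [ha]; rw [hU]; ring
        rw [this, Units.inv_mul_cancel_left]
      rw [this]; exact Ideal.mul_mem_left _ _ (sub_mem haS.1 haS.2)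
    have hwS : w ∈ S := by
      have : w = a i - (∑ k ∈ range i, ζ ^ k) * y := by simp [ha]
      rw [this]; exact sub_mem haS.1 (Ideal.mul_mem_left _ _ hyS)
    have hw'S : w' ∈ S := by
      obtain ⟨A, B, hAB⟩ := (isCoprime_lam H hy).pow_left (m := p * (m' + 1))
      have : w' = A * w + B * w' * y := by linear_combination (-w') * hAB - A * hw'
      rw [this]; exact add_mem (Ideal.mul_mem_left _ _ hwS) (Ideal.mul_mem_left _ _ hyS)
    refine Ideal.span_le.mpr fun t ht => ?_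
    rcases ht with rfl | rfl
    · exact hw'S
    · exact hyS
  have hprodI : ∏ i ∈ range p, Ideal.span {b i} = Ideal.span {z} ^ p := by
    rw [Ideal.prod_span_singleton, Ideal.span_singleton_pow, hr, Finset.prod_insert h0,
      show b 0 = w' from if_pos rfl, Finset.prod_congr rfl fun i hi =>
        show b i = a i from if_neg (Nat.one_le_iff_ne_zero.mp (Finset.mem_Ico.mp hi).1), hprod',
      Ideal.span_singleton_mul_left_unit ε.isUnit]
  have hroot : ∀ i < p, ∃ (t : R) (u : Rˣ), b i * a 1 ^ (p - 1) = (u : R) * t ^ p := by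
    intro i hi
    obtain ⟨J, hJ⟩ := exists_pow_of_common_factor hp.out.ne_zero hD hle hsup hprodI hi
      (show 1 < p by omega)
    refine hR _ J ?_
    rw [← hJ, ← Ideal.span_singleton_mul_span_singleton, ← Ideal.span_singleton_pow,
      show b 1 = a 1 from if_neg one_ne_zero]
  obtain ⟨t0, u0, h00⟩ := hroot 0 (by omega)
  obtain ⟨t2, u2, h22⟩ := hroot (p - 1) (by omega)
  rw [show b 0 = w' from if_pos rfl] at h00
  rw [show b (p - 1) = a (p - 1) from if_neg (by omega)] at h22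
  have hrel : a 1 + ζ * a (p - 1) = (1 + ζ) * w := by
    refine mul_left_cancel₀ hlam.ne_zero ?_
    have e1 := hfac 1
    have e2 := hfac (p - 1)
    have hzp : ζ * ζ ^ (p - 1) = 1 := by
      rw [← pow_succ', Nat.sub_add_cancel hp.out.one_le, H.prim.pow_eq_one]
    rw [pow_one] at e1
    linear_combination (-e1) + (-ζ) * e2 + (1 + ζ) * hxy + y * hzp
  have hz1 : IsUnit (1 + ζ) := by
    have h := H.prim.geom_sum_isUnit hp.out.two_le (j := 2)
      ((Nat.coprime_primes Nat.prime_two hp.out).2 (by omega))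
    simpa [Finset.sum_range_succ] using h
  obtain ⟨uz, huz⟩ := H.prim.isUnit hp.out.ne_zero
  obtain ⟨u3, hu3⟩ := hz1
  set η : Rˣ := uz * u2 with hη
  set ε' : Rˣ := u3 * u0 with hε'
  have hp1 : a 1 ^ p = a 1 * a 1 ^ (p - 1) := by
    rw [← pow_succ', Nat.sub_add_cancel hp.out.one_le]
  have hnew : a 1 ^ p + (η : R) * t2 ^ p = (ε' : R) * (lam ^ (m' + 1) * t0) ^ p := by
    rw [hη, hε', Units.val_mul, Units.val_mul, huz, hu3, mul_pow, ← pow_mul, mul_comm (m' + 1) p, hp1]
    linear_combination (a 1 ^ (p - 1)) * hrel - ζ * h22 + (1 + ζ) * lam ^ (p * (m' + 1)) * h00 +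
      (1 + ζ) * a 1 ^ (p - 1) * hw'
  have hlt : ∀ {t c : R} {u : Rˣ}, c = (u : R) * t ^ p → ¬ lam ∣ c → ¬ lam ∣ t := by
    intro t c u h hc hd
    exact hc (h ▸ dvd_mul_of_dvd_right (dvd_pow hd hp.out.ne_zero) _)
  have ha1 := hndvd 1 one_pos (by omega)
  have hnmul : ∀ {c : R}, ¬ lam ∣ c → ¬ lam ∣ c * a 1 ^ (p - 1) := fun hc h =>
    (hlam.dvd_or_dvd h).elim hc fun h => ha1 (hlam.dvd_of_dvd_pow h)
  have ht2n := hlt h22 (hnmul (hndvd (p - 1) (by omega) (by omega)))
  have ht0n := hlt h00 (hnmul hw'n)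
  obtain ⟨v, hv⟩ : ∃ v : Rˣ, v ^ p = η := by
    refine hK η ?_
    obtain ⟨n1, hn1⟩ := H.pow_prime_int (a 1)
    obtain ⟨n2, hn2⟩ := H.pow_prime_int t2
    have hn2' : ¬ (p : ℤ) ∣ n2 := by
      intro h
      obtain ⟨k, hk⟩ := h
      have h1 : lam ∣ t2 ^ p - (n2 : R) := H.lam_dvd_prime_one.trans hn2
      have h2 : lam ∣ (n2 : R) := by
        rw [hk]; push_cast; exact dvd_mul_of_dvd_left H.lam_dvd_prime_one _
      exact ht2n (hlam.dvd_of_dvd_pow (by simpa using dvd_add h1 h2))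
    obtain ⟨A, B, hAB⟩ : IsCoprime (p : ℤ) n2 :=
      (Nat.prime_iff_prime_int.mp hp.out).coprime_iff_not_dvd.2 hn2'
    have hbig : (p : R) ∣ (ε' : R) * (lam ^ (m' + 1) * t0) ^ p := by
      rw [mul_pow, ← pow_mul]
      refine dvd_mul_of_dvd_right (dvd_mul_of_dvd_left (H.assoc.symm.dvd.trans
        (pow_dvd_pow _ ?_)) _) _
      calc p - 1 ≤ p := Nat.sub_le _ _
        _ ≤ (m' + 1) * p := Nat.le_mul_of_pos_left _ (Nat.succ_pos _)
    refine ⟨-(n1 * B), ?_⟩
    obtain ⟨c1, hc1⟩ := hn1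
    obtain ⟨c2, hc2⟩ := hn2
    obtain ⟨c3, hc3⟩ := hbig
    have hABR : (A : R) * (p : R) + (B : R) * (n2 : R) = 1 := by exact_mod_cast congrArg (Int.cast : ℤ → R) hAB
    refine ⟨(η : R) * (A : R) + (B : R) * (c3 - c1 - (η : R) * c2), ?_⟩
    push_cast
    linear_combination (-(η : R)) * hABR + (B : R) * hnew + (B : R) * hc3 - (B : R) * hc1
      - (B : R) * (η : R) * hc2
  refine ⟨a 1, (v : R) * t2, t0, ε', ha1, ?_, ht0n, ?_⟩
  · intro h
    rcases hlam.dvd_or_dvd h with h | h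
    · exact H.lam_not_dvd_unit v h
    · exact ht2n h
  · rw [mul_pow (v : R), ← Units.val_pow_eq_pow_val, hv, hnew]

/-- **Case II**: no solutions of `x ^ p + y ^ p = ε * ((ζ - 1) ^ (m + 1) * z) ^ p`. -/
theorem no_solution_general (H : CycloRing R p ζ) (h5 : 3 ≤ p) (hK : KummerProp R p) (hR : IdealRootProp R p) :
    ∀ (m : ℕ) (x y z : R) (ε : Rˣ), ¬ ζ - 1 ∣ x → ¬ ζ - 1 ∣ y → ¬ ζ - 1 ∣ z →
      x ^ p + y ^ p = (ε : R) * ((ζ - 1) ^ (m + 1) * z) ^ p → False := by
  intro m
  induction m using Nat.strong_induction_on with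
  | _ m ih =>
    intro x y z ε hx hy hz heq
    have hodd : Odd p := hp.out.odd_of_ne_two (by omega)
    have hlam := H.lam_prime
    have hprod : ζ - 1 ∣ ∏ i ∈ range p, (x + ζ ^ i * y) := by
      rw [← H.pow_add_pow_eq_prod hodd, heq]
      exact dvd_mul_of_dvd_right
        (dvd_pow (dvd_mul_of_dvd_left (dvd_pow_self _ (Nat.succ_ne_zero m)) _) hp.out.ne_zero) _
    obtain ⟨i, -, hi⟩ := (hlam.dvd_finsetProd_iff _).1 hprod
    have hxy : ζ - 1 ∣ x + y := by
      have h : ζ - 1 ∣ (ζ ^ i - 1) * y := dvd_mul_of_dvd_left (sub_one_dvd_pow_sub_one ζ i) _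
      have := dvd_sub hi h
      convert this using 1; ring
    obtain ⟨w, hw⟩ := hxy
    obtain ⟨A, B, hAB⟩ := isCoprime_lam H hy
    obtain ⟨n, hn⟩ := H.residue (w * B)
    -- choose `s` with `λ ∣ w + s y`
    set s : ℕ := ((-n) % (p : ℤ)).toNat with hs
    have hsn : ζ - 1 ∣ (s : R) + (n : R) := by
      have hp0 : (p : ℤ) ≠ 0 := by exact_mod_cast hp.out.ne_zero
      have h1 : (p : ℤ) ∣ (s : ℤ) + n := by
        rw [hs, Int.toNat_of_nonneg (Int.emod_nonneg _ hp0), Int.emod_def]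
        exact ⟨-((-n) / (p : ℤ)), by ring⟩
      obtain ⟨c, hc⟩ := h1
      rw [show ((s : R) + (n : R)) = (p : R) * (c : R) by exact_mod_cast congrArg (Int.cast : ℤ → R) hc]
      exact dvd_mul_of_dvd_left H.lam_dvd_prime_one _
    have hzu : IsUnit (ζ ^ s) := (H.prim.isUnit hp.out.ne_zero).pow s
    obtain ⟨m', hm', x', y', z', ε', hx', hy', hz', heq'⟩ :=
      descent_step_general H h5 hK hR m (x := x) (y := ζ ^ s * y) ε
        (fun h => (hlam.dvd_or_dvd h).elim
          (fun h => hlam.not_isUnit (isUnit_of_dvd_unit h hzu)) hy) hz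
        (by rw [mul_pow, ← pow_mul, mul_comm s p, pow_mul, H.prim.pow_eq_one, one_pow, one_mul,
              heq])
        (w := w + (∑ j ∈ range s, ζ ^ j) * y)
        (by
          have h : (ζ - 1) * (∑ j ∈ range s, ζ ^ j) = ζ ^ s - 1 := mul_geom_sum ζ s
          linear_combination hw - y * h)
        (by
          obtain ⟨c1, hc1⟩ := hn
          obtain ⟨c2, hc2⟩ := H.geom_sum_congr s
          obtain ⟨c3, hc3⟩ := hsn
          refine ⟨w * A + y * c1 + y * c2 + y * c3, ?_⟩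
          linear_combination (-w) * hAB + y * hc1 + y * hc2 + y * hc3)
    exact ih m' (by omega) x' y' z' ε' hx' hy' hz' heq'

end FA.CycloKummer
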