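import Fermat.Agent.CycloKummer.CaseOne
import Fermat.Agent.Regular.VandiverFactors

/-!
# The real descent at a regular prime for every exponent

`ω^p + θ^p = η L^E ξ^p` with `ω`, `θ` real and coprime, `L = (ζ - 1)(ζ⁻¹ - 1)` and `E ≥ p` gives a solution with
exponent `2 E - p` and fewer primes in `ξ`; so there is none.
-/

set_option autoImplicit false

noncomputable section

open NumberField
open FA.Ext FA.Regular

namespace FA.CycloKummer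

variable {p : ℕ} [Fact p.Prime] {K : Type*} [Field K] [NumberField K] [IsCyclotomicExtension {p} ℚ K]

local notation "λ₀" => zetaInt p K - 1
local notation "L₀" => realLam p K

theorem prime_dvd_realLam_pow (h3 : 3 ≤ p) {n : ℕ} (hn : (p - 1) / 2 ≤ n) : (p : 𝓞 K) ∣ L₀ ^ n := by
  obtain ⟨g, -, hg⟩ := exists_realUnit_prime p K h3
  rw [← hg]
  exact (Units.mul_right_dvd).mpr (pow_dvd_pow _ hn)

/-- Units with congruent multiples of `p`-th powers have quotient congruent to an integer. -/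
theorem exists_int_quot (h3 : 3 ≤ p) {u v : (𝓞 K)ˣ} {x y : 𝓞 K} (hy : ¬ λ₀ ∣ y)
    (h : (p : 𝓞 K) ∣ (u : 𝓞 K) * x ^ p - (v : 𝓞 K) * y ^ p) :
    ∃ n : ℤ, (p : 𝓞 K) ∣ ((v * u⁻¹ : (𝓞 K)ˣ) : 𝓞 K) - n := by
  have H := cycloRing_zetaInt (K := K) h3
  obtain ⟨nx, cx, hcx⟩ := H.pow_prime_int x
  obtain ⟨ny, cy, hcy⟩ := H.pow_prime_int y
  have hnp : ¬ (p : ℤ) ∣ ny := by
    rintro ⟨c', rfl⟩
    refine hy (H.lam_prime.dvd_of_dvd_pow (n := p) ?_)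
    rw [eq_add_of_sub_eq' hcy, Int.cast_mul, Int.cast_natCast]
    exact dvd_add (dvd_mul_of_dvd_left H.lam_dvd_prime_one _) (dvd_mul_of_dvd_left H.lam_dvd_prime_one _)
  obtain ⟨A, B, hAB⟩ : IsCoprime (p : ℤ) ny :=
    (Nat.prime_iff_prime_int.mp (Fact.out : p.Prime)).coprime_iff_not_dvd.2 hnp
  obtain ⟨d, hd⟩ := h
  have hABR : (A : 𝓞 K) * (p : 𝓞 K) + (B : 𝓞 K) * (ny : 𝓞 K) = 1 := by
    exact_mod_cast congrArg (Int.cast : ℤ → 𝓞 K) hAB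
  refine ⟨nx * B,
    (↑u⁻¹ : 𝓞 K) * ((v : 𝓞 K) * A + (B : 𝓞 K) * ((u : 𝓞 K) * cx - (v : 𝓞 K) * cy - d)), ?_⟩
  rw [Units.val_mul]
  push_cast
  linear_combination (-(↑u⁻¹ : 𝓞 K) * (v : 𝓞 K)) * hABR - (B : 𝓞 K) * (↑u⁻¹ : 𝓞 K) *
    (hd - (u : 𝓞 K) * hcx + (v : 𝓞 K) * hcy) + (B : 𝓞 K) * (nx : 𝓞 K) * u.inv_mul

/-- One step of the descent. -/
theorem descent_real (h5 : 5 ≤ p) (hK : KummerProp (𝓞 K) p)
    (hclass : ∀ C : ClassGroup (𝓞 K), C ^ p = 1 → sigmaCl p K (-1) C = C → C = 1) {E : ℕ} (hE : p ≤ E)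
    {ω θ ξ : 𝓞 K} (η : (𝓞 K)ˣ) (hω : cj p K ω = ω) (hθ : cj p K θ = θ) (hlθ : ¬ λ₀ ∣ θ)
    (hco : IsCoprime ω θ) (hlξ : ¬ λ₀ ∣ ξ) (heq : ω ^ p + θ ^ p = (η : 𝓞 K) * L₀ ^ E * ξ ^ p) :
    ∃ (ω' θ' ξ' : 𝓞 K) (η' : (𝓞 K)ˣ), cj p K ω' = ω' ∧ cj p K θ' = θ' ∧ ¬ λ₀ ∣ θ' ∧ IsCoprime ω' θ' ∧
      ¬ λ₀ ∣ ξ' ∧ ω' ^ p + θ' ^ p = (η' : 𝓞 K) * L₀ ^ (2 * E - p) * ξ' ^ p ∧
      (∀ P : Ideal (𝓞 K), P.IsPrime → ξ' ∈ P → ξ ∈ P) ∧ ∃ P : Ideal (𝓞 K), P.IsMaximal ∧ ξ ∈ P ∧ ξ' ∉ P := by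
  have hp : p.Prime := Fact.out
  have : NeZero p := ⟨hp.ne_zero⟩
  have hodd : Odd p := hp.odd_of_ne_two (by omega)
  have H := cycloRing_zetaInt (K := K) (show 3 ≤ p by omega)
  obtain ⟨e, R, he, hR, -, hlR0, hi, hR12, hR0ξ, P, hP, hξP, hR0P⟩ :=
    exists_factors_exp p K h5 hclass hE η hω hθ hlθ hco hlξ heq
  set z := zetaInt p K with hz
  have m1 : 1 ∈ Finset.Ico 1 p := Finset.mem_Ico.mpr ⟨le_rfl, hp.one_lt⟩
  have m2 : 2 ∈ Finset.Ico 1 p := Finset.mem_Ico.mpr ⟨by omega, by omega⟩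
  obtain ⟨-, e1, hl1⟩ := hi 1 m1
  obtain ⟨-, e2, hl2⟩ := hi 2 m2
  obtain ⟨g2, hg2u⟩ := isUnit_gSq p K m2
  have hg1 : gSq p K 1 = 1 := by simp [gSq, geomS]
  rw [hg1, one_mul] at e1
  rw [← hg2u] at e2
  obtain ⟨w, hw⟩ : ∃ w : (𝓞 K)ˣ, w ^ p = e 2 * (e 1)⁻¹ := by
    refine hK _ (exists_int_quot (by omega) (x := R 1) hl2 ?_)
    have hbig := prime_dvd_realLam_pow (p := p) (K := K) (by omega) (show (p - 1) / 2 ≤ 2 * E - p by omega)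
    have h1 : (p : 𝓞 K) ∣ (e 1 : 𝓞 K) * R 1 ^ p + ω * θ := e1 ▸ dvd_mul_of_dvd_left hbig _
    have h2 : (p : 𝓞 K) ∣ (e 2 : 𝓞 K) * R 2 ^ p + ω * θ :=
      g2.isUnit.dvd_mul_left.mp (e2 ▸ dvd_mul_of_dvd_left hbig _)
    have h3 := dvd_sub h1 h2
    rwa [add_sub_add_right_eq_sub] at h3
  have hwp : (e 2 : 𝓞 K) = (w : 𝓞 K) ^ p * (e 1 : 𝓞 K) := by
    rw [← Units.val_pow_eq_pow_val, hw, Units.val_mul, Units.inv_mul_cancel_right]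
  have hwcj : cj p K (w : 𝓞 K) ^ p = (w : 𝓞 K) ^ p := by
    refine mul_right_cancel₀ (e 1).ne_zero ?_
    have h' := congrArg (cj p K) hwp
    rw [he, map_mul, he, map_pow] at h'
    rw [← h', hwp]
  obtain ⟨j, -, hj⟩ := H.prim.eq_pow_of_pow_eq_one
    (ξ := cj p K (w : 𝓞 K) * ((w⁻¹ : (𝓞 K)ˣ) : 𝓞 K))
    (by rw [mul_pow, hwcj, ← mul_pow, Units.mul_inv, one_pow])
  obtain ⟨h, hreal, hpw⟩ := exists_real_mul_zeta_pow p K (by omega) (x := (w : 𝓞 K)) (j := j) (by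
    rw [hj, mul_assoc, Units.inv_mul, mul_one])
  set W := zetaInt p K ^ h * (w : 𝓞 K) with hW
  have hWu : IsUnit W := ((H.prim.isUnit hp.ne_zero).pow h).mul w.isUnit
  have hg2 : gSq p K 2 = 2 + z + z ^ (p - 1) := by
    have h := pow_succ' z (p - 1)
    rw [Nat.sub_add_cancel hp.one_le, H.prim.pow_eq_one] at h
    simp only [gSq, geomS, Finset.sum_range_succ, Finset.sum_range_zero, zero_add, pow_zero, pow_one,
      map_add, map_one, ← hz]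
    rw [hz, FA.Regular.cj_zeta, ← hz]
    linear_combination -h
  have hζ2 : IsUnit (1 + z + z ^ (p - 1)) := by
    have hz1 : z ^ (p - 1) * z = 1 := by rw [← pow_succ, Nat.sub_add_cancel hp.one_le, H.prim.pow_eq_one]
    rw [show 1 + z + z ^ (p - 1) = z ^ (p - 1) * ∑ i ∈ Finset.range 3, z ^ i by
      simp only [Finset.sum_range_succ, Finset.sum_range_zero, zero_add, pow_zero, pow_one]
      linear_combination -(1 + z) * hz1]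
    exact ((H.prim.isUnit hp.ne_zero).pow _).mul
      (H.prim.geom_sum_isUnit hp.two_le ((Nat.coprime_primes Nat.prime_three hp).mpr (by omega)))
  obtain ⟨d, hdu⟩ := hζ2
  refine ⟨R 1, -(W * R 2), R 0 ^ 2, e 0 ^ 2 * d * g2⁻¹ * (e 1)⁻¹, hR 1,
    by rw [map_neg, map_mul, hreal, hR], fun h' => ?_,
    ((isCoprime_mul_unit_left_right hWu _ _).mpr hR12).neg_right,
    fun h' => hlR0 (H.lam_prime.dvd_of_dvd_pow h'), ?_, fun Q hQ h' => ?_,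
    P, hP, hξP, fun h' => hR0P (hP.isPrime.mem_of_pow_mem _ h')⟩
  · rw [dvd_neg] at h'
    rcases H.lam_prime.dvd_or_dvd h' with h' | h'
    · exact H.lam_prime.not_isUnit (isUnit_of_dvd_unit h' hWu)
    · exact hl2 h'
  · have hWp : (e 2 : 𝓞 K) = W ^ p * (e 1 : 𝓞 K) := by rw [hW, hpw, hwp]
    have hd' : (d : 𝓞 K) = (g2 : 𝓞 K) - 1 := by rw [hdu, hg2u, hg2]; ring
    refine mul_left_cancel₀ (mul_ne_zero g2.ne_zero (e 1).ne_zero) ?_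
    simp only [Units.val_mul, Units.val_pow_eq_pow_val]
    rw [hodd.neg_pow, mul_pow W, ← pow_mul (R 0) 2, mul_comm 2 p, pow_mul]
    linear_combination (g2 : 𝓞 K) * e1 - e2 + (g2 : 𝓞 K) * R 2 ^ p * hWp
      - (e 0 : 𝓞 K) ^ 2 * L₀ ^ (2 * E - p) * (R 0 ^ p) ^ 2 * hd'
      - (d : 𝓞 K) * (e 0 : 𝓞 K) ^ 2 * L₀ ^ (2 * E - p) * (R 0 ^ p) ^ 2 *
        ((e 1 : 𝓞 K) * ((e 1)⁻¹ : (𝓞 K)ˣ) * g2.mul_inv + (e 1).mul_inv)
  · exact hQ.mem_of_pow_mem _ (Ideal.mem_of_dvd Q hR0ξ (hQ.mem_of_pow_mem _ h'))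

/-- **No real solution at a regular prime**, whatever the exponent `E ≥ p` of `L`. -/
theorem no_real_solution_exp (h5 : 5 ≤ p) (hK : KummerProp (𝓞 K) p)
    (hclass : ∀ C : ClassGroup (𝓞 K), C ^ p = 1 → sigmaCl p K (-1) C = C → C = 1) {E : ℕ} (hE : p ≤ E)
    {ω θ ξ : 𝓞 K} (η : (𝓞 K)ˣ) (hω : cj p K ω = ω) (hθ : cj p K θ = θ) (hlθ : ¬ λ₀ ∣ θ)
    (hco : IsCoprime ω θ) (hlξ : ¬ λ₀ ∣ ξ) : ω ^ p + θ ^ p ≠ (η : 𝓞 K) * L₀ ^ E * ξ ^ p := by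
  classical
  suffices ∀ (d E : ℕ) (ω θ ξ : 𝓞 K) (η : (𝓞 K)ˣ),
      (UniqueFactorizationMonoid.normalizedFactors (Ideal.span {ξ})).toFinset.card = d → p ≤ E →
      cj p K ω = ω → cj p K θ = θ → ¬ λ₀ ∣ θ → IsCoprime ω θ → ¬ λ₀ ∣ ξ →
      ω ^ p + θ ^ p = (η : 𝓞 K) * L₀ ^ E * ξ ^ p → False from
    fun heq => this _ E ω θ ξ η rfl hE hω hθ hlθ hco hlξ heq
  intro d
  induction d using Nat.strong_induction_on with
  | _ d ih =>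
    intro E ω θ ξ η hd hE hω hθ hlθ hco hlξ heq
    obtain ⟨ω', θ', ξ', η', hω', hθ', hlθ', hco', hlξ', heq', hsub, P, hP, hPξ, hPξ'⟩ :=
      descent_real h5 hK hclass hE η hω hθ hlθ hco hlξ heq
    have hspan : ∀ {x : 𝓞 K}, ¬ λ₀ ∣ x → Ideal.span {x} ≠ ⊥ := fun hx e =>
      hx (Ideal.span_singleton_eq_bot.mp e ▸ dvd_zero _)
    refine ih _ (hd ▸ Finset.card_lt_card ((Finset.ssubset_iff_of_subset ?_).mpr ⟨P, ?_, ?_⟩))
      (2 * E - p) ω' θ' ξ' η' rfl (by omega) hω' hθ' hlθ' hco' hlξ' heq'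
    · intro Q hQ
      rw [Multiset.mem_toFinset, Ideal.mem_normalizedFactors_iff (hspan hlξ')] at hQ
      rw [Multiset.mem_toFinset, Ideal.mem_normalizedFactors_iff (hspan hlξ)]
      exact ⟨hQ.1, (Ideal.span_singleton_le_iff_mem _).mpr
        (hsub Q hQ.1 ((Ideal.span_singleton_le_iff_mem _).mp hQ.2))⟩
    · rw [Multiset.mem_toFinset, Ideal.mem_normalizedFactors_iff (hspan hlξ)]
      exact ⟨hP.isPrime, (Ideal.span_singleton_le_iff_mem _).mpr hPξ⟩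
    · rw [Multiset.mem_toFinset, Ideal.mem_normalizedFactors_iff (hspan hlξ')]
      exact fun h => hPξ' ((Ideal.span_singleton_le_iff_mem _).mp h.2)

end FA.CycloKummer
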