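import Fermat.Agent.Regular.CaseTwoClassGroup

/-!
# Factors of a `p`-th power with a common ideal

If `p` ideals have the same greatest common divisor in pairs and their product is a `p`-th power, then
each times the `(p-1)`-st power of another is a `p`-th power.
-/

set_option autoImplicit false

open Finset NumberField

namespace FA.CycloKummer

/-- Principal `p`-th powers of ideals come from `p`-th powers of elements. -/
def IdealRootProp (R : Type*) [CommRing R] (p : ℕ) : Prop :=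
  ∀ (a : R) (J : Ideal R), Ideal.span {a} = J ^ p → ∃ (t : R) (u : Rˣ), a = (u : R) * t ^ p

variable {R : Type*} [CommRing R] [IsDedekindDomain R] {p : ℕ}

/-- The lemma on factors with a common ideal. -/
theorem exists_pow_of_common_factor (hp : p ≠ 0) {A : ℕ → Ideal R} {D E : Ideal R} (hD : D ≠ ⊥)
    (hle : ∀ i < p, A i ≤ D) (hsup : ∀ i < p, ∀ j < p, i ≠ j → D ≤ A i ⊔ A j)
    (hprod : ∏ i ∈ range p, A i = E ^ p) {i j : ℕ} (hi : i < p) (hj : j < p) :
    ∃ J : Ideal R, A i * A j ^ (p - 1) = J ^ p := by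
  choose! B hB using fun i (hi : i < p) => Ideal.dvd_iff_le.mpr (hle i hi)
  have hcop : ∀ a ∈ range p, ∀ b ∈ range p, a ≠ b → IsCoprime (B a) (B b) := fun a ha b hb hab => by
    rw [mem_range] at ha hb
    rw [Ideal.isCoprime_iff_sup_eq]
    refine mul_left_cancel₀ (a := D) hD ?_
    rw [Ideal.mul_sup, ← hB a ha, ← hB b hb, Ideal.mul_top]
    exact le_antisymm (sup_le (hle a ha) (hle b hb)) (hsup a ha b hb hab)
  rw [prod_congr rfl fun a ha => hB a (mem_range.mp ha), prod_mul_distrib, prod_const, card_range] at hprod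
  obtain ⟨F, rfl⟩ : D ∣ E :=
    (UniqueFactorizationMonoid.pow_dvd_pow_iff_dvd hp).mp ⟨_, hprod.symm⟩
  rw [mul_pow] at hprod
  have hF := mul_left_cancel₀ (pow_ne_zero p hD) hprod
  obtain ⟨C, hC⟩ := Finset.exists_eq_pow_of_mul_eq_pow_of_coprime hcop hF i (mem_range.mpr hi)
  obtain ⟨C', hC'⟩ := Finset.exists_eq_pow_of_mul_eq_pow_of_coprime hcop hF j (mem_range.mpr hj)
  refine ⟨D * C * C' ^ (p - 1), ?_⟩
  obtain ⟨q, rfl⟩ : ∃ q, p = q + 1 := ⟨p - 1, by omega⟩
  simp only [Nat.add_sub_cancel]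
  rw [hB i hi, hB j hj, hC, hC']
  ring

/-- No classes of order `p`. -/
theorem idealRootProp_of_not_dvd {p : ℕ} [Fact p.Prime] (K : Type*) [Field K] [NumberField K]
    (h : ¬ p ∣ classNumber K) : IdealRootProp (𝓞 K) p := by
  intro a J hJ
  rcases eq_or_ne a 0 with rfl | ha
  · exact ⟨0, 1, by rw [zero_pow (Fact.out : p.Prime).ne_zero, mul_zero]⟩
  have hJ0 : J ≠ ⊥ := fun e => ha (by
    rw [e] at hJ
    exact Ideal.span_singleton_eq_bot.mp (hJ.trans (zero_pow (Fact.out : p.Prime).ne_zero)))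
  let J₀ : nonZeroDivisors (Ideal (𝓞 K)) := ⟨J, mem_nonZeroDivisors_iff_ne_zero.mpr hJ0⟩
  have h1 : ClassGroup.mk0 J₀ ^ p = 1 := by
    rw [← map_pow]
    exact (ClassGroup.mk0_eq_one_iff _).mpr ⟨⟨a, hJ.symm⟩⟩
  have h2 : ClassGroup.mk0 J₀ = 1 :=
    (pow_eq_one_iff_of_coprime ((Fact.out : p.Prime).coprime_iff_not_dvd.mpr h)).mp ⟨h1, pow_card_eq_one⟩
  obtain ⟨⟨t, ht⟩⟩ := (ClassGroup.mk0_eq_one_iff J₀.2).mp h2
  have hassoc : Associated (t ^ p) a := Ideal.span_singleton_eq_span_singleton.mp (by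
    rw [← Ideal.span_singleton_pow, ← Ideal.submodule_span_eq, ← ht]; exact hJ.symm)
  obtain ⟨u, hu⟩ := hassoc
  exact ⟨t, u, by rw [← hu, mul_comm]⟩

end FA.CycloKummer
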