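import Fermat.Agent.CycloKummer.DescentExponent

/-!
# The equation `x^p + y^p = p^m z^p`

For `m = 2` after reduction one factor gives `u t^p - u' t̄^p = λ^(p-2) s` with both `p`-th powers congruent to one
integer modulo `p`; for `m ≥ 3` the real descent applies.
-/

set_option autoImplicit false

noncomputable section

open NumberField Finset
open FA.Ext FA.Regular

namespace FA.CycloKummer

variable {p : ℕ} [Fact p.Prime] (K : Type*) [Field K] [NumberField K] [IsCyclotomicExtension {p} ℚ K]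

/-- The exponent two. -/
theorem ne_prime_sq_mul_pow (h5 : 5 ≤ p) (hR : IdealRootProp (𝓞 K) p) {x y z : ℤ} (hxy : IsCoprime x y)
    (hz : ¬ (p : ℤ) ∣ z) : x ^ p + y ^ p ≠ (p : ℤ) ^ 2 * z ^ p := by
  intro heq
  have hp : p.Prime := Fact.out
  have hodd : Odd p := hp.odd_of_ne_two (by omega)
  have hpI : Prime (p : ℤ) := Nat.prime_iff_prime_int.mp hp
  have hpx : (p : ℤ) ∣ x ^ p + y ^ p := heq ▸ (dvd_pow_self _ two_ne_zero).mul_right _
  have hpy : ¬ (p : ℤ) ∣ y := fun h => by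
    have hx := hpI.dvd_of_dvd_pow ((dvd_add_left (dvd_pow h hp.ne_zero)).mp hpx)
    exact hpI.not_isUnit (hxy.isUnit_of_dvd' hx h)
  obtain ⟨s, hs⟩ : (p : ℤ) ∣ x + y := by
    rw [← ZMod.intCast_zmod_eq_zero_iff_dvd] at hpx ⊢
    simpa [ZMod.pow_card] using hpx
  have H := cycloRing_zetaInt (K := K) (show 3 ≤ p by omega)
  set z' := zetaInt p K with hzeta
  set l := z' - 1 with hl
  have hlam := H.lam_prime
  obtain ⟨u₀, hu₀⟩ := H.assoc
  have hp2 : l ^ (p - 1) = l * l ^ (p - 2) := by rw [← pow_succ']; congr 1; omega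
  set w : 𝓞 K := l ^ (p - 2) * ((u₀ : 𝓞 K) * s) with hw
  have hxyw : (x : 𝓞 K) + y = l * w := by
    rw [hw, ← mul_assoc, ← hp2, ← mul_assoc, hu₀]
    exact_mod_cast congrArg (Int.cast : ℤ → 𝓞 K) hs
  set a : ℕ → 𝓞 K := fun i => w + (∑ k ∈ range i, z' ^ k) * y with ha
  have hfac : ∀ i, (x : 𝓞 K) + z' ^ i * y = l * a i := fun i => by
    have h : l * (∑ k ∈ range i, z' ^ k) = z' ^ i - 1 := mul_geom_sum z' i
    simp only [ha]
    linear_combination hxyw - (y : 𝓞 K) * h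
  have hr : range p = insert 0 (Finset.Ico 1 p) := by
    ext i; simp only [Finset.mem_range, Finset.mem_insert, Finset.mem_Ico]; omega
  have h0 : (0 : ℕ) ∉ Finset.Ico 1 p := by simp
  have ha0 : a 0 = w := by simp [ha]
  have hlp : ¬ l ∣ (z : 𝓞 K) := fun h => hz (H.int_dvd _ h)
  have hprod : (s : 𝓞 K) * ∏ i ∈ Finset.Ico 1 p, a i = (u₀ : 𝓞 K) * (z : 𝓞 K) ^ p := by
    have h := H.pow_add_pow_eq_prod hodd (x : 𝓞 K) (y : 𝓞 K)
    rw [Finset.prod_congr rfl fun i _ => hfac i, prod_mul_distrib, prod_const, card_range, hr,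
      Finset.prod_insert h0, ha0, hw] at h
    have hcast := congrArg (Int.cast : ℤ → 𝓞 K) heq
    push_cast at hcast
    rw [hcast, ← hu₀] at h
    refine mul_left_cancel₀ (mul_ne_zero (pow_ne_zero (p - 2) hlam.ne_zero)
      (mul_ne_zero u₀.ne_zero (pow_ne_zero p hlam.ne_zero))) ?_
    rw [show l ^ (p - 1) = l * l ^ (p - 2) from hp2] at h
    have hp2' : l ^ p = l * l * l ^ (p - 2) := by
      rw [mul_assoc, ← pow_succ', ← pow_succ']; congr 1; omega
    rw [hp2'] at h ⊢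
    linear_combination -h
  have hs' : ¬ l ∣ (s : 𝓞 K) := fun h => by
    have : l ∣ (u₀ : 𝓞 K) * (z : 𝓞 K) ^ p := hprod ▸ dvd_mul_of_dvd_left h _
    rcases hlam.dvd_or_dvd this with h | h
    · exact H.lam_not_dvd_unit _ h
    · exact hlp (hlam.dvd_of_dvd_pow h)
  set b : ℕ → 𝓞 K := fun i => if i = 0 then (s : 𝓞 K) else a i with hb
  have hcop : ∀ i < p, ∀ j < p, i ≠ j → (⊤ : Ideal (𝓞 K)) ≤ Ideal.span {b i} ⊔ Ideal.span {b j} := by
    intro i hi j hj hij
    set S := Ideal.span {b i} ⊔ Ideal.span {b j}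
    have hmem : ∀ k, (b k ∈ S) → a k ∈ S := fun k hk => by
      by_cases h : k = 0
      · subst h
        rw [ha0, hw]
        simp only [hb, if_pos] at hk
        exact Ideal.mul_mem_left _ _ (Ideal.mul_mem_left _ _ hk)
      · simpa only [hb, h, if_false] using hk
    have hiS : a i ∈ S := hmem i (Ideal.mem_sup_left (Ideal.mem_span_singleton_self _))
    have hjS : a j ∈ S := hmem j (Ideal.mem_sup_right (Ideal.mem_span_singleton_self _))
    obtain ⟨U, hU⟩ := H.geom_sum_sub_isUnit hi hj hij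
    have hyS : (y : 𝓞 K) ∈ S := by
      have h : a i - a j = (U : 𝓞 K) * y := by simp only [ha]; rw [hU]; ring
      exact (Ideal.unit_mul_mem_iff_mem S U.isUnit).mp (h ▸ sub_mem hiS hjS)
    have hxS : (x : 𝓞 K) ∈ S := by
      have h : (x : 𝓞 K) = l * a i - z' ^ i * y := by linear_combination hfac i
      rw [h]; exact sub_mem (Ideal.mul_mem_left _ _ hiS) (Ideal.mul_mem_left _ _ hyS)
    obtain ⟨A, B, hAB⟩ := hxy.map (Int.castRingHom (𝓞 K))
    simp only [eq_intCast] at hAB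
    exact ((Ideal.eq_top_iff_one _).mpr (hAB ▸ add_mem (Ideal.mul_mem_left _ _ hxS) (Ideal.mul_mem_left _ _ hyS))).ge
  have hprodI : ∏ i ∈ range p, Ideal.span {b i} = Ideal.span {(z : 𝓞 K)} ^ p := by
    rw [Ideal.prod_span_singleton, Ideal.span_singleton_pow, hr, Finset.prod_insert h0,
      show b 0 = (s : 𝓞 K) from if_pos rfl, Finset.prod_congr rfl fun i hi =>
        show b i = a i from if_neg (Nat.one_le_iff_ne_zero.mp (Finset.mem_Ico.mp hi).1), hprod,
      Ideal.span_singleton_mul_left_unit u₀.isUnit]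
  have hcop' : ∀ i ∈ range p, ∀ j ∈ range p, i ≠ j → IsCoprime (Ideal.span {b i}) (Ideal.span {b j}) :=
    fun i hi j hj hij => Ideal.isCoprime_iff_sup_eq.mpr
      (top_unique (hcop i (mem_range.mp hi) j (mem_range.mp hj) hij))
  obtain ⟨J, hJ⟩ := Finset.exists_eq_pow_of_mul_eq_pow_of_coprime hcop' hprodI 1 (mem_range.mpr hp.one_lt)
  obtain ⟨t, u, htu⟩ := hR (a 1) J (by rw [← hJ, show b 1 = a 1 from if_neg one_ne_zero])
  obtain ⟨σ, j, hσj⟩ := exists_conj_congr (show 3 ≤ p by omega) u t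
  rw [← htu] at hσj
  have hconj : cj p K (a 1) = -(z' * a (p - 1)) := by
    have h1 := congrArg (cj p K) (hfac 1)
    rw [pow_one, map_add, map_mul, map_intCast, map_intCast, map_mul, cj_lam,
      show cj p K z' = z' ^ (p - 1) from cj_zeta] at h1
    have h2 := hfac (p - 1)
    have hz1 : z' ^ (p - 1) * z' = 1 := by rw [← pow_succ, Nat.sub_add_cancel hp.one_le, H.prim.pow_eq_one]
    refine mul_left_cancel₀ (mul_ne_zero (pow_ne_zero (p - 1) (H.prim.ne_zero hp.ne_zero)) hlam.ne_zero) ?_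
    linear_combination h1 - h2 + l * a (p - 1) * hz1
  have hlow : l ^ (p - 1) ∣ w * (1 + z' ^ (p - 1)) - (z' ^ (p - 1) - (-1) ^ σ * z' ^ j * z' ^ (p - 1)) * a 1 := by
    obtain ⟨c, hc⟩ := hσj
    have hz1 : z' ^ (p - 1) * z' = 1 := by rw [← pow_succ, Nat.sub_add_cancel hp.one_le, H.prim.pow_eq_one]
    have hrel : a (p - 1) + z' ^ (p - 1) * a 1 = (1 + z' ^ (p - 1)) * w := by
      have h : l * (∑ k ∈ range (p - 1), z' ^ k) = z' ^ (p - 1) - 1 := mul_geom_sum z' (p - 1)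
      refine mul_left_cancel₀ hlam.ne_zero ?_
      simp only [ha, sum_range_one, pow_zero]
      linear_combination (y : 𝓞 K) * h + z' ^ (p - 1) * (y : 𝓞 K) * hl + (y : 𝓞 K) * hz1
    refine H.lam_dvd_prime.trans ⟨-z' ^ (p - 1) * c, ?_⟩
    rw [show sigma p K (-1) = cj p K from rfl, hconj] at hc
    linear_combination -hrel - a (p - 1) * hz1 - z' ^ (p - 1) * hc
  -- modulo `λ^2` the root of unity and the sign are trivial
  have hz1 : z' ^ (p - 1) * z' = 1 := by rw [← pow_succ, Nat.sub_add_cancel hp.one_le, H.prim.pow_eq_one]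
  have ha1 : ¬ l ∣ a 1 := fun h => by
    have : l ∣ (y : 𝓞 K) := by
      have e : (y : 𝓞 K) = a 1 - w := by simp [ha]
      rw [e]
      exact dvd_sub h (dvd_mul_of_dvd_left (dvd_pow_self _ (by omega)) _)
    exact hpy (H.int_dvd _ this)
  have hlw : l ^ 2 ∣ w := dvd_mul_of_dvd_left (pow_dvd_pow _ (by omega)) _
  have hcoef : l ^ 2 ∣ z' ^ (p - 1) * (1 - (-1) ^ σ * z' ^ j) := by
    have h := (dvd_sub_right (hlw.mul_right _)).mp ((pow_dvd_pow _ (show 2 ≤ p - 1 by omega)).trans hlow)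
    rw [mul_comm] at h
    have h' := hlam.pow_dvd_of_dvd_mul_left 2 ha1 h
    convert h' using 1
    ring
  obtain ⟨hA, hB⟩ := intCast_zmod_eq_zero_of_redSq (K := K) (show 3 ≤ p by omega)
    (A := 1 - (-1) ^ σ) (B := -((-1) ^ σ * (j : ℤ))) (by
      obtain ⟨c, hc⟩ := hcoef
      have e : redSq p K (1 - (-1) ^ σ * z' ^ j) = 0 := by
        rw [← map_zero (redSq p K), redSq_eq, sub_zero]
        exact ⟨z' * c, by linear_combination z' * hc - (1 - (-1) ^ σ * z' ^ j) * hz1⟩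
      rw [map_sub, map_mul, map_one, map_pow, map_neg, map_one, redSq_zeta_pow] at e
      push_cast
      linear_combination e)
  push_cast at hA hB
  have hσ1 : ((-1) ^ σ : 𝓞 K) = 1 := by
    rcases Nat.even_or_odd σ with h | h
    · exact h.neg_one_pow
    · rw [h.neg_one_pow] at hA
      exact absurd (show (2 : ZMod p) = 0 by linear_combination hA) (two_ne_zero_of_five_le p h5)
  have hζj : z' ^ j = 1 := by
    have hj : ((j : ℕ) : ZMod p) = ((0 : ℕ) : ZMod p) := by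
      rcases neg_one_pow_eq_or (ZMod p) σ with h | h <;> rw [h] at hB <;> simpa using hB
    rw [hzeta, zeta_pow_congr hj, pow_zero]
  rw [hσ1, one_mul, hζj, one_mul, sub_self, zero_mul, sub_zero, hw, mul_assoc, ← Nat.sub_add_cancel
    (show 1 ≤ p - 1 by omega), show p - 1 - 1 = p - 2 by omega, pow_succ,
    mul_dvd_mul_iff_left (pow_ne_zero _ hlam.ne_zero)] at hlow
  rcases hlam.dvd_or_dvd hlow with h | h
  · rcases hlam.dvd_or_dvd h with h | h
    · exact H.lam_not_dvd_unit _ h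
    · exact hs' h
  · have h' : l ∣ ((2 : ℤ) : 𝓞 K) := by
      have := dvd_sub h (sub_one_dvd_pow_sub_one z' (p - 2 + 1))
      push_cast
      convert this using 1
      ring
    exact Nat.not_dvd_of_pos_of_lt two_pos (by omega : 2 < p) (Int.natCast_dvd_natCast.mp (H.int_dvd 2 h'))

/-- Coprime solutions for a positive exponent. -/
theorem ne_prime_pow_mul_pow (h5 : 5 ≤ p) (hK : KummerProp (𝓞 K) p) (hR : IdealRootProp (𝓞 K) p)
    (hclass : ∀ C : ClassGroup (𝓞 K), C ^ p = 1 → sigmaCl p K (-1) C = C → C = 1) {x y z : ℤ}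
    (hxy : IsCoprime x y) (hz : ¬ (p : ℤ) ∣ z) {k : ℕ} (hk : 1 ≤ k) : x ^ p + y ^ p ≠ (p : ℤ) ^ k * z ^ p := by
  intro heq
  have hp : p.Prime := Fact.out
  have hodd : Odd p := hp.odd_of_ne_two (by omega)
  have hpI : Prime (p : ℤ) := Nat.prime_iff_prime_int.mp hp
  have hpx : (p : ℤ) ∣ x ^ p + y ^ p := heq ▸ (dvd_pow_self _ (by omega)).mul_right _
  have hpy : ¬ (p : ℤ) ∣ y := fun h => by
    have hx := hpI.dvd_of_dvd_pow ((dvd_add_left (dvd_pow h hp.ne_zero)).mp hpx)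
    exact hpI.not_isUnit (hxy.isUnit_of_dvd' hx h)
  rcases Nat.lt_or_ge k 3 with hk3 | hk3
  · interval_cases k
    · have hs : (p : ℤ) ∣ x - -y := by
        rw [← ZMod.intCast_zmod_eq_zero_iff_dvd] at hpx ⊢
        simpa [ZMod.pow_card] using hpx
      have h2 := dvd_sub_pow_of_dvd_sub hs 1
      rw [pow_one, hodd.neg_pow, sub_neg_eq_add, heq, pow_one, sq, mul_dvd_mul_iff_left hpI.ne_zero] at h2
      exact hz (hpI.dvd_of_dvd_pow h2)
    · exact ne_prime_sq_mul_pow K h5 hR hxy hz heq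
  · have H := cycloRing_zetaInt (K := K) (show 3 ≤ p by omega)
    obtain ⟨g, -, hg⟩ := exists_realUnit_prime p K (show 3 ≤ p by omega)
    refine no_real_solution_exp h5 hK hclass (E := (p - 1) / 2 * k) ?_ (ω := (x : 𝓞 K)) (θ := (y : 𝓞 K))
      (ξ := (z : 𝓞 K)) (g ^ k) (map_intCast _ _) (map_intCast _ _) (fun h => hpy (H.int_dvd _ h))
      (by simpa using hxy.map (Int.castRingHom (𝓞 K))) (fun h => hz (H.int_dvd _ h)) ?_
    · calc p ≤ (p - 1) / 2 * 3 := by have := Nat.odd_iff.mp hodd; omega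
        _ ≤ _ := Nat.mul_le_mul_left _ hk3
    · have h := congrArg (Int.cast : ℤ → 𝓞 K) heq
      push_cast at h
      rw [h, ← hg, mul_pow, ← pow_mul, Units.val_pow_eq_pow_val]
      ring

/-- **The equation of Legendre and Maillet**. -/
theorem legendre_maillet (h5 : 5 ≤ p) (hK : KummerProp (𝓞 K) p) (hR : IdealRootProp (𝓞 K) p)
    (hclass : ∀ C : ClassGroup (𝓞 K), C ^ p = 1 → sigmaCl p K (-1) C = C → C = 1) (hflt : FermatLastTheoremFor p)
    {x y z : ℤ} (hx : x ≠ 0) (hy : y ≠ 0) (hz : z ≠ 0) (m : ℕ) : x ^ p + y ^ p ≠ (p : ℤ) ^ m * z ^ p := by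
  intro heq
  have hp : p.Prime := Fact.out
  have hodd : Odd p := hp.odd_of_ne_two (by omega)
  have hpI : Prime (p : ℤ) := Nat.prime_iff_prime_int.mp hp
  have hgpos : 0 < Int.gcd x y := Int.gcd_pos_of_ne_zero_left _ hx
  obtain ⟨g, x', y', hg, hco, rfl, rfl⟩ : ∃ (g x' y' : ℤ), g ≠ 0 ∧ IsCoprime x' y' ∧ x = x' * g ∧ y = y' * g := by
    obtain ⟨x', y', h, hx', hy'⟩ := Int.exists_gcd_one hgpos
    exact ⟨Int.gcd x y, x', y', by exact_mod_cast hgpos.ne', Int.isCoprime_iff_gcd_eq_one.mpr h, hx', hy'⟩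
  have hsum : x' ^ p + y' ^ p ≠ 0 := fun h => hz (by
    rw [mul_pow, mul_pow, ← add_mul, h, zero_mul, eq_comm, mul_eq_zero] at heq
    exact (pow_eq_zero_iff hp.ne_zero).mp (heq.resolve_left (pow_ne_zero _ hpI.ne_zero)))
  obtain ⟨k, s, hs, hS⟩ := WfDvdMonoid.max_power_factor hsum hpI.irreducible
  obtain ⟨b, g', hg', rfl⟩ := WfDvdMonoid.max_power_factor hg hpI.irreducible
  obtain ⟨a, z', hz', rfl⟩ := WfDvdMonoid.max_power_factor hz hpI.irreducible
  have hmain : (p : ℤ) ^ (b * p + k) * (g' ^ p * s) = (p : ℤ) ^ (m + a * p) * z' ^ p := by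
    simp only [mul_pow, pow_add, pow_mul] at heq ⊢
    linear_combination heq - (((p : ℤ) ^ b) ^ p * g' ^ p) * hS
  have hn1 : ¬ (p : ℤ) ∣ g' ^ p * s := fun h => (hpI.dvd_or_dvd h).elim (fun h => hg' (hpI.dvd_of_dvd_pow h)) hs
  have hn2 : ¬ (p : ℤ) ∣ z' ^ p := fun h => hz' (hpI.dvd_of_dvd_pow h)
  have hkey : g' ^ p * s = z' ^ p := by
    have hcancel : ∀ {i j : ℕ} {u v : ℤ}, i < j → ¬ (p : ℤ) ∣ u → (p : ℤ) ^ i * u ≠ (p : ℤ) ^ j * v :=
      fun {i j u v} hij hu h => hu (by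
        obtain ⟨d, rfl⟩ := Nat.exists_eq_add_of_lt hij
        rw [show i + d + 1 = i + (d + 1) by ring, pow_add, mul_assoc] at h
        rw [mul_left_cancel₀ (pow_ne_zero i hpI.ne_zero) h]
        exact (dvd_pow_self _ d.succ_ne_zero).mul_right _)
    rcases lt_trichotomy (b * p + k) (m + a * p) with h | h | h
    · exact absurd hmain (hcancel h hn1)
    · rw [h] at hmain
      exact mul_left_cancel₀ (pow_ne_zero _ hpI.ne_zero) hmain
    · exact absurd hmain.symm (hcancel h hn2)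
  obtain ⟨w, rfl⟩ : g' ∣ z' := (Int.pow_dvd_pow_iff hp.ne_zero).mp ⟨s, hkey.symm⟩
  rw [mul_pow] at hkey
  have hsw : s = w ^ p := mul_left_cancel₀ (pow_ne_zero _ fun e => hg' (by rw [e]; exact dvd_zero _)) hkey
  subst hsw
  rcases Nat.eq_zero_or_pos k with rfl | hk
  · rw [pow_zero, one_mul] at hS
    exact fermatLastTheoremFor_iff_int.mp hflt x' y' w (left_ne_zero_of_mul hx) (left_ne_zero_of_mul hy)
      (fun e => hs (by rw [e, zero_pow hp.ne_zero]; exact dvd_zero _)) hS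
  · exact ne_prime_pow_mul_pow K h5 hK hR hclass hco (fun h => hs (dvd_pow h hp.ne_zero)) hk hS

end FA.CycloKummer
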