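import Fermat.Agent.CycloKummer.CaseOne

/-!
# Kummer's theorem in `ℚ(ζ_p)`

From the two cases: for a regular prime `p ≥ 5` three nonzero elements of the field never have
`x^p + y^p + z^p = 0`.
-/

set_option autoImplicit false

noncomputable section

open NumberField
open FA.Ext FA.Regular

namespace FA.CycloKummer

variable {p : ℕ} [Fact p.Prime] {K : Type*} [Field K] [NumberField K] [IsCyclotomicExtension {p} ℚ K]

local notation "λ₀" => zetaInt p K - 1

/-- One of three cyclotomic integers with `x^p + y^p + z^p = 0` and the others prime to `λ`. -/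
theorem second_case (h5 : 5 ≤ p) (hK : KummerProp (𝓞 K) p) (hR : IdealRootProp (𝓞 K) p) {x y z : 𝓞 K}
    (hx : ¬ λ₀ ∣ x) (hy : ¬ λ₀ ∣ y) (hz0 : z ≠ 0) (hz : λ₀ ∣ z) : x ^ p + y ^ p + z ^ p ≠ 0 := by
  intro heq
  have H := cycloRing_zetaInt (K := K) (show 3 ≤ p by omega)
  obtain ⟨n, z', hz', rfl⟩ := WfDvdMonoid.max_power_factor hz0 H.lam_prime.irreducible
  obtain ⟨m, rfl⟩ : ∃ m, n = m + 1 := ⟨n - 1, (Nat.succ_pred_eq_of_ne_zero fun e => hz' (by
    subst e; simpa using hz)).symm⟩
  exact no_solution_general H (by omega) hK hR m x y z' (-1) hx hy hz' (by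
    rw [Units.val_neg, Units.val_one]; linear_combination heq)

/-- The third is divisible by `λ` when two are. -/
theorem lam_dvd_third (h5 : 5 ≤ p) {x y z : 𝓞 K} (h : x ^ p + y ^ p + z ^ p = 0) (hx : λ₀ ∣ x) (hy : λ₀ ∣ y) :
    λ₀ ∣ z := by
  have H := cycloRing_zetaInt (K := K) (show 3 ≤ p by omega)
  refine H.lam_prime.dvd_of_dvd_pow (n := p) ?_
  rw [show z ^ p = -(x ^ p + y ^ p) by linear_combination h, dvd_neg]
  exact dvd_add (dvd_pow hx (by omega)) (dvd_pow hy (by omega))

/-- No solutions in the ring of integers. -/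
theorem fermat_ringOfIntegers (h5 : 5 ≤ p) (hK : KummerProp (𝓞 K) p) (hR : IdealRootProp (𝓞 K) p) {x y z : 𝓞 K}
    (hx0 : x ≠ 0) (hy0 : y ≠ 0) (hz0 : z ≠ 0) : x ^ p + y ^ p + z ^ p ≠ 0 := by
  have H := cycloRing_zetaInt (K := K) (show 3 ≤ p by omega)
  obtain ⟨n, x', hx', rfl⟩ := WfDvdMonoid.max_power_factor hx0 H.lam_prime.irreducible
  clear hx0
  induction n generalizing y z with
  | zero =>
    rw [pow_zero, one_mul]
    intro heq
    by_cases hy : λ₀ ∣ y
    · by_cases hz : λ₀ ∣ z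
      · exact hx' (lam_dvd_third h5 (x := y) (y := z) (z := x') (by linear_combination heq) hy hz)
      · exact second_case h5 hK hR hx' hz hy0 hy (by linear_combination heq)
    · by_cases hz : λ₀ ∣ z
      · exact second_case h5 hK hR hx' hy hz0 hz heq
      · exact first_case h5 hR hx' hy hz heq
  | succ n ih =>
    intro heq
    have hxd : λ₀ ∣ λ₀ ^ (n + 1) * x' := (dvd_pow_self _ n.succ_ne_zero).mul_right _
    by_cases hy : λ₀ ∣ y
    · obtain ⟨z', rfl⟩ := lam_dvd_third h5 heq hxd hy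
      obtain ⟨y', rfl⟩ := hy
      refine ih (y := y') (z := z') (right_ne_zero_of_mul hy0) (right_ne_zero_of_mul hz0)
        (mul_left_cancel₀ (pow_ne_zero p H.lam_prime.ne_zero) ?_)
      generalize zetaInt p K - 1 = l at heq ⊢
      linear_combination heq
    · by_cases hz : λ₀ ∣ z
      · exact hy (lam_dvd_third h5 (z := y) (by linear_combination heq) hxd hz)
      · exact second_case h5 hK hR hy hz
          (mul_ne_zero (pow_ne_zero _ H.lam_prime.ne_zero) fun e => hx' (by rw [e]; exact dvd_zero _)) hxd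
          (by linear_combination heq)

/-- **Kummer's theorem** for the field. -/
theorem fermat_field (h5 : 5 ≤ p) (hK : KummerProp (𝓞 K) p) (hR : IdealRootProp (𝓞 K) p) {x y z : K}
    (hx0 : x ≠ 0) (hy0 : y ≠ 0) (hz0 : z ≠ 0) : x ^ p + y ^ p + z ^ p ≠ 0 := by
  intro heq
  obtain ⟨a, d, hd, ha⟩ := IsFractionRing.div_surjective (𝓞 K) x
  obtain ⟨b, e, he, hb⟩ := IsFractionRing.div_surjective (𝓞 K) y
  obtain ⟨c, f, hf, hc⟩ := IsFractionRing.div_surjective (𝓞 K) z
  have hinj := IsFractionRing.injective (𝓞 K) K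
  have hne : ∀ {t : 𝓞 K}, t ∈ nonZeroDivisors (𝓞 K) → algebraMap (𝓞 K) K t ≠ 0 := fun ht =>
    IsFractionRing.to_map_ne_zero_of_mem_nonZeroDivisors ht
  have hd' := hne hd
  have he' := hne he
  have hf' := hne hf
  set φ := algebraMap (𝓞 K) K
  have hA : φ (a * e * f) = x * φ (d * e * f) := by
    rw [← ha]; simp only [map_mul]; field_simp
  have hB : φ (b * d * f) = y * φ (d * e * f) := by
    rw [← hb]; simp only [map_mul]; field_simp
  have hC : φ (c * d * e) = z * φ (d * e * f) := by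
    rw [← hc]; simp only [map_mul]; field_simp
  have hD : φ (d * e * f) ≠ 0 := by simp only [map_mul]; exact mul_ne_zero (mul_ne_zero hd' he') hf'
  refine fermat_ringOfIntegers h5 hK hR (fun h => mul_ne_zero hx0 hD (by rw [← hA, h, map_zero]))
    (fun h => mul_ne_zero hy0 hD (by rw [← hB, h, map_zero]))
    (fun h => mul_ne_zero hz0 hD (by rw [← hC, h, map_zero])) (x := a * e * f) (y := b * d * f) (z := c * d * e)
    (hinj ?_)
  rw [map_add, map_add, map_pow, map_pow, map_pow, hA, hB, hC, map_zero, mul_pow, mul_pow, mul_pow, ← add_mul,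
    ← add_mul, heq, zero_mul]

end FA.CycloKummer
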