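import Mathlib

/-!
# The quadratic subfield of `ℚ(ζ_p)`

The square of the quadratic Gauss sum is `(-1)^((p-1)/2) p`, so `ℚ(√((-1)^((p-1)/2) p))` embeds in `ℚ(ζ_p)`.
-/

set_option autoImplicit false

noncomputable section

open Polynomial

namespace FA.CycloKummer

/-- The Gauss sum. -/
theorem exists_sq_eq_pStar (p : ℕ) [Fact p.Prime] (hp2 : p ≠ 2) (K : Type*) [Field K] [CharZero K]
    [IsCyclotomicExtension {p} ℚ K] : ∃ c : K, c ^ 2 = (-1) ^ (p / 2) * (p : K) := by
  have hp : p.Prime := Fact.out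
  have : NeZero p := ⟨hp.ne_zero⟩
  have hchar : ringChar (ZMod p) ≠ 2 := by rwa [ZMod.ringChar_zmod_n]
  have hζ := IsCyclotomicExtension.zeta_spec p ℚ K
  refine ⟨gaussSum ((quadraticChar (ZMod p)).ringHomComp (Int.castRingHom K))
    (AddChar.zmodChar p hζ.pow_eq_one), ?_⟩
  rw [gaussSum_sq ((MulChar.ringHomComp_ne_one_iff Int.cast_injective).mpr (quadraticChar_ne_one hchar))
    ((quadraticChar_isQuadratic _).comp _) (AddChar.zmodChar_primitive_of_primitive_root p hζ),
    ZMod.card, MulChar.ringHomComp_apply, quadraticChar_neg_one hchar, ZMod.card,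
    ZMod.χ₄_eq_neg_one_pow ((hp.eq_two_or_odd).resolve_left hp2)]
  simp

/-- A quadratic field containing a square root of `(-1)^((p-1)/2) p` maps into `ℚ(ζ_p)`. -/
theorem nonempty_ringHom_of_sq_eq_pStar (p : ℕ) [Fact p.Prime] (hp2 : p ≠ 2) (K : Type*) [Field K] [CharZero K]
    [IsCyclotomicExtension {p} ℚ K] (L : Type*) [Field L] [CharZero L] (hL : Module.finrank ℚ L = 2) {r : L}
    (hr : r ^ 2 = (-1) ^ (p / 2) * (p : L)) : Nonempty (L →+* K) := by
  have hp : p.Prime := Fact.out
  have : FiniteDimensional ℚ L := Module.finite_of_finrank_eq_succ hL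
  obtain ⟨c, hc⟩ := exists_sq_eq_pStar p hp2 K
  have hirr : r ∉ (⊥ : IntermediateField ℚ L) := by
    rintro ⟨q, rfl⟩
    have h : q ^ 2 = (-1) ^ (p / 2) * (p : ℚ) := by
      apply FaithfulSMul.algebraMap_injective ℚ L
      simpa using hr
    have hs : IsSquare ((p : ℚ)) := by
      rcases neg_one_pow_eq_or ℚ (p / 2) with e | e <;> rw [e] at h
      · exact ⟨q, by rw [← sq, h, one_mul]⟩
      · nlinarith [sq_nonneg q, (Nat.cast_pos (α := ℚ)).mpr hp.pos]
    rw [Rat.isSquare_natCast_iff] at hs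
    exact (show Irreducible p from hp).not_isSquare hs
  have htop : IntermediateField.adjoin ℚ {r} = ⊤ := by
    have : IsSimpleOrder (IntermediateField ℚ L) :=
      IntermediateField.isSimpleOrder_of_finrank_prime ℚ L (hL ▸ Nat.prime_two)
    refine (IsSimpleOrder.eq_bot_or_eq_top _).resolve_left fun e => hirr ?_
    exact e ▸ IntermediateField.mem_adjoin_simple_self ℚ r
  obtain ⟨f⟩ := IntermediateField.nonempty_algHom_of_adjoin_splits (K := K) (S := {r}) (fun s hs => by
    rw [Set.mem_singleton_iff.mp hs]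
    refine ⟨Algebra.IsIntegral.isIntegral _, ?_⟩
    have hdvd : minpoly ℚ r ∣ X ^ 2 - C ((-1) ^ (p / 2) * (p : ℚ)) := minpoly.dvd ℚ r (by simp [hr])
    refine Polynomial.Splits.of_dvd ?_ (Polynomial.map_ne_zero (X_pow_sub_C_ne_zero two_pos _))
      (Polynomial.map_dvd _ hdvd)
    rw [show (X ^ 2 - C ((-1) ^ (p / 2) * (p : ℚ)) : ℚ[X]).map (algebraMap ℚ K) = (X - C c) * (X + C c) by
      simp only [Polynomial.map_sub, Polynomial.map_pow, Polynomial.map_X, Polynomial.map_mul, Polynomial.map_neg,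
        Polynomial.map_one, Polynomial.map_natCast, map_mul, map_pow, map_neg, map_one, map_natCast]
      have hc' : C c * C c = (-1 : K[X]) ^ (p / 2) * (p : K[X]) := by
        rw [← C_mul, ← sq, hc]; simp
      linear_combination (norm := ring_nf) hc']
    exact (Polynomial.Splits.X_sub_C c).mul (Polynomial.Splits.X_add_C c)) htop
  exact ⟨f.toRingHom⟩

end FA.CycloKummer
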